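import Mathlib
import Fermat.Agent.FF.Differentials
import Fermat.Agent.Pic0Tors.Chart

/-!
# Differentiation in a chart

Functions regular at a point of a chart are analytic there (`analyticAt_fn_of_mem`) and `d/dz` is
differentiation with respect to the uniformiser of the chart (`hasDerivAt_fn`); hence the
coefficient of a holomorphic differential is holomorphic (`analyticOnNhd_coeff`).
-/

set_option autoImplicit false
set_option linter.unusedSectionVars false

noncomputable section

open AlgebraicCurve Polynomial WithZero Filter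
open scoped Polynomial.Bivariate Topology

namespace FLTAgent.Pic0Tors

variable {F : Type*} [Field F] [Algebra ℂ F]

theorem exists_partial (x y : F) (A : ℂ[X][Y]) :
    ∃ A' : ℂ[X][Y],
      KaehlerDifferential.D ℂ F (evxy x y A) = evxy x y A' • KaehlerDifferential.D ℂ F x +
        evxy x y (derivative A) • KaehlerDifferential.D ℂ F y ∧
      ∀ (h : ℂ → ℂ) (z d : ℂ), HasDerivAt h d z →
        HasDerivAt (branch h A) (branch h A' z + branch h (derivative A) z * d) z := by
  induction A using Polynomial.induction_on' with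
  | add p q hp hq =>
    obtain ⟨p', hp1, hp2⟩ := hp
    obtain ⟨q', hq1, hq2⟩ := hq
    refine ⟨p' + q', ?_, fun h z d hd => ?_⟩
    · simp only [map_add, add_smul, hp1, hq1]
      abel
    · have e : branch h (p + q) = fun u => branch h p u + branch h q u := by
        funext u; simp [branch, evalEval_add]
      rw [e]
      refine ((hp2 h z d hd).add (hq2 h z d hd)).congr_deriv ?_
      simp only [branch, map_add, evalEval_add]
      ring
  | monomial n p =>
    refine ⟨monomial n (derivative p), ?_, fun h z d hd => ?_⟩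
    · rw [← C_mul_X_pow_eq_monomial, ← C_mul_X_pow_eq_monomial, derivative_C_mul_X_pow]
      simp only [map_mul, map_pow, map_natCast, evxy_C, evxy_Y, Derivation.leibniz,
        Derivation.leibniz_pow, Derivation.map_aeval]
      simp only [smul_smul, ← Nat.cast_smul_eq_nsmul F]
      rw [add_comm]
      congr 2 <;> ring
    · have e : branch h (monomial n p) = fun u => p.eval u * h u ^ n := by
        funext u
        rw [← C_mul_X_pow_eq_monomial]
        simp [branch, evalEval_mul, evalEval_pow, evalEval_C, evalEval_X]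
      rw [e]
      refine ((p.hasDerivAt z).mul (hd.pow n)).congr_deriv ?_
      rw [← C_mul_X_pow_eq_monomial, ← C_mul_X_pow_eq_monomial, derivative_C_mul_X_pow]
      simp [branch, evalEval_mul, evalEval_pow, evalEval_C, evalEval_X, evalEval_natCast]
      ring

namespace BranchChart

variable [FF.IsFF ℂ F] {v : Place ℂ F} (c : BranchChart v)

theorem mem_of_eval_ne {f : F} {A : ℂ[X][Y]} {B : ℂ[X]}
    (e : f * aeval c.x B = evxy c.x c.y A) {u : ℂ} (hu : u ∈ Metric.ball (0 : ℂ) c.r)
    (hB : B.eval u ≠ 0) : f ∈ (c.pt u).toValuationSubring := by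
  have hB1 : (c.pt u).adicValuation (aeval c.x B) = 1 := by
    rw [← evxy_C c.x c.y B]
    exact val_evxy_eq_one (c.centred_pt hu) (by rwa [evalEval_C])
  rw [FF.mem_iff_val_le_one]
  have h1 := congrArg (c.pt u).adicValuation e
  rw [map_mul, hB1, mul_one] at h1
  rw [h1]
  exact val_evxy_le (c.centred_pt hu) A

theorem aeval_mem {u : ℂ} (hu : u ∈ Metric.ball (0 : ℂ) c.r) (B : ℂ[X]) :
    aeval c.x B ∈ (c.pt u).toValuationSubring := by
  rw [FF.mem_iff_val_le_one, ← evxy_C c.x c.y B]
  exact val_evxy_le (c.centred_pt hu) _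

theorem evxy_mem {u : ℂ} (hu : u ∈ Metric.ball (0 : ℂ) c.r) (A : ℂ[X][Y]) :
    evxy c.x c.y A ∈ (c.pt u).toValuationSubring := by
  rw [FF.mem_iff_val_le_one]
  exact val_evxy_le (c.centred_pt hu) _

theorem value_aeval {u : ℂ} (hu : u ∈ Metric.ball (0 : ℂ) c.r) (B : ℂ[X]) :
    value (c.pt u) (aeval c.x B) = B.eval u := by
  rw [← evxy_C c.x c.y B, c.value_evxy hu, branch, evalEval_C]

theorem eventually_eval_ne {B : ℂ[X]} (hB : B ≠ 0) (z : ℂ) :
    ∀ᶠ u in 𝓝[≠] z, B.eval u ≠ 0 := by
  rcases (analyticAt_polyEval B z).eventually_eq_zero_or_eventually_ne_zero with h | h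
  · exfalso
    refine hB (Polynomial.eq_zero_of_infinite_isRoot B ?_)
    exact (infinite_of_mem_nhds z h).mono fun u hu => hu
  · exact h

theorem eventually_mem {f : F} {z : ℂ} (hz : z ∈ Metric.ball (0 : ℂ) c.r)
    (hf : f ∈ (c.pt z).toValuationSubring) :
    ∀ᶠ u in 𝓝 z, f ∈ (c.pt u).toValuationSubring := by
  obtain ⟨A, B, hB, e⟩ := c.gen f
  have h := eventually_nhdsWithin_iff.mp (eventually_eval_ne hB z)
  filter_upwards [h, Metric.isOpen_ball.mem_nhds hz] with u hu huz
  rcases eq_or_ne u z with rfl | hne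
  · exact hf
  · exact c.mem_of_eval_ne e huz (hu hne)

/-- A function regular at a point of the chart is analytic there. -/
theorem analyticAt_fn_of_mem {f : F} {z : ℂ} (hz : z ∈ Metric.ball (0 : ℂ) c.r)
    (hf : f ∈ (c.pt z).toValuationSubring) : AnalyticAt ℂ (c.fn f) z := by
  set a := value (c.pt z) f with ha
  set f1 := f - algebraMap ℂ F a with hf1
  have hm1 : f1 ∈ (c.pt z).toValuationSubring := sub_mem hf ((c.pt z).algebraMap_mem' a)
  have h1z : value (c.pt z) f1 = 0 := by
    rw [hf1, value_sub _ hf ((c.pt z).algebraMap_mem' a), value_algebraMap, sub_self]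
  have heq : c.fn f =ᶠ[𝓝 z] fun u => a + c.fn f1 u := by
    filter_upwards [c.eventually_mem hz hf] with u hu
    simp only [fn, hf1]
    rw [value_sub _ hu ((c.pt u).algebraMap_mem' a), value_algebraMap]
    ring
  refine AnalyticAt.congr ?_ heq.symm
  refine analyticAt_const.add ?_
  rcases eq_or_ne f1 0 with h0 | h0
  · have : c.fn f1 = fun _ => (0 : ℂ) := by funext u; simp [fn, h0, value_zero]
    rw [this]; exact analyticAt_const
  refine (c.meromorphicAt_fn f1 hz).analyticAt ?_
  have hord : 0 < (c.pt z).ord f1 := by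
    have := (value_eq_zero_iff _ hm1).mp h1z
    rw [FF.val_eq_exp _ h0, ← exp_zero, exp_lt_exp] at this
    omega
  have ht : Tendsto (c.fn f1) (𝓝[≠] z) (𝓝 0) :=
    tendsto_zero_of_meromorphicOrderAt_pos (by
      rw [c.meromorphicOrderAt_fn h0 hz]
      exact_mod_cast hord)
  rw [← continuousWithinAt_compl_self, ContinuousWithinAt]
  rwa [show c.fn f1 z = 0 from h1z]

theorem analyticAt_fn {f : F} {z : ℂ} (hz : z ∈ Metric.ball (0 : ℂ) c.r)
    (hf : 0 ≤ (c.pt z).ord f) : AnalyticAt ℂ (c.fn f) z := by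
  refine c.analyticAt_fn_of_mem hz ?_
  rw [FF.mem_iff]
  exact Or.inr hf

theorem D_x_sub (z : ℂ) :
    KaehlerDifferential.D ℂ F c.x = KaehlerDifferential.D ℂ F (c.x - algebraMap ℂ F z) := by
  rw [map_sub, Derivation.map_algebraMap, sub_zero]

theorem ord_coeff_eq {z : ℂ} (hz : z ∈ Metric.ball (0 : ℂ) c.r) (g : F) :
    (c.pt z).ordDifferential (g • KaehlerDifferential.D ℂ F c.x) = (c.pt z).ord g := by
  rw [c.D_x_sub z]
  exact FF.ordDifferential_smul_D_uniformizer _ (c.ord_x_sub hz) g

theorem coeff_mem {f g : F} (hD : KaehlerDifferential.D ℂ F f = g • KaehlerDifferential.D ℂ F c.x)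
    {z : ℂ} (hz : z ∈ Metric.ball (0 : ℂ) c.r) (hf : f ∈ (c.pt z).toValuationSubring) :
    g ∈ (c.pt z).toValuationSubring := by
  rw [FF.mem_iff]
  right
  rw [← c.ord_coeff_eq hz g, ← hD]
  exact FF.ordDifferential_D_nonneg _ (FF.ord_nonneg_of_mem_placeRing _ hf)

theorem D_x_ne_zero : KaehlerDifferential.D ℂ F c.x ≠ 0 :=
  (FF.ordDifferential_D_of_ord_cast_ne_zero v (f := c.x) (by rw [c.ord_x]; norm_num)).1

theorem hasDerivAt_fn_of_eval_ne {f g : F}
    (hD : KaehlerDifferential.D ℂ F f = g • KaehlerDifferential.D ℂ F c.x)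
    {A : ℂ[X][Y]} {B : ℂ[X]} (e : f * aeval c.x B = evxy c.x c.y A)
    {z : ℂ} (hz : z ∈ Metric.ball (0 : ℂ) c.r) (hB : B.eval z ≠ 0) :
    HasDerivAt (c.fn f) (c.fn g z) z := by
  have hc := c.centred_pt hz
  obtain ⟨P', hP1, hP2⟩ := exists_partial c.x c.y c.P
  obtain ⟨A', hA1, hA2⟩ := exists_partial c.x c.y A
  have hPY : evxy c.x c.y (derivative c.P) ≠ 0 := fun h0 => by
    simpa [h0] using val_evxy_eq_one hc (c.deriv_ne z hz)
  set yd : F := -(evxy c.x c.y P') / evxy c.x c.y (derivative c.P) with hyd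
  have hDy : KaehlerDifferential.D ℂ F c.y = yd • KaehlerDifferential.D ℂ F c.x := by
    have h := hP1
    rw [c.root, map_zero] at h
    refine smul_right_injective _ hPY ?_
    simp only [smul_smul, hyd, mul_div_cancel₀ _ hPY, neg_smul]
    exact (eq_neg_of_add_eq_zero_right h.symm)
  have hh : HasDerivAt c.h (deriv c.h z) z := (c.analytic z hz).differentiableAt.hasDerivAt
  have hPd : branch c.h P' z + branch c.h (derivative c.P) z * deriv c.h z = 0 :=
    (hP2 _ _ _ hh).unique ((hasDerivAt_const z (0 : ℂ)).congr_of_eventuallyEq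
      (c.branch_eventually z hz))
  have hydv : (c.pt z).adicValuation yd ≤ 1 := by
    rw [hyd, map_div₀, Valuation.map_neg, val_evxy_eq_one hc (c.deriv_ne z hz), div_one]
    exact val_evxy_le hc _
  have hydm := (FF.mem_iff_val_le_one _ _).mpr hydv
  have hydval : value (c.pt z) yd = deriv c.h z := by
    have h1 : value (c.pt z) (yd * evxy c.x c.y (derivative c.P)) = -branch c.h P' z := by
      rw [hyd, div_mul_cancel₀ _ hPY, ← map_neg, c.value_evxy hz, branch, evalEval_neg]
      rfl
    rw [value_mul _ hydm (c.evxy_mem hz _), c.value_evxy hz] at h1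
    refine mul_right_cancel₀ (c.deriv_ne z hz) ?_
    show value (c.pt z) yd * branch c.h (derivative c.P) z =
      deriv c.h z * branch c.h (derivative c.P) z
    linear_combination h1 - hPd
  set gA : F := evxy c.x c.y A' + evxy c.x c.y (derivative A) * yd with hgA
  have hfm := c.mem_of_eval_ne e hz hB
  have hgm := c.coeff_mem hD hz hfm
  have hrel : g * aeval c.x B + f * aeval c.x (derivative B) = gA := by
    refine smul_left_injective F c.D_x_ne_zero ?_
    have h := congrArg (KaehlerDifferential.D ℂ F) e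
    rw [Derivation.leibniz, Derivation.map_aeval, hA1, hD, hDy] at h
    simp only [hgA, smul_smul, ← add_smul] at h ⊢
    rw [← h]
    congr 1
    ring
  have hval : value (c.pt z) g * B.eval z + value (c.pt z) f * (derivative B).eval z =
      branch c.h A' z + branch c.h (derivative A) z * deriv c.h z := by
    have h := congrArg (value (c.pt z)) hrel
    rw [hgA, value_add _ (mul_mem hgm (c.aeval_mem hz B)) (mul_mem hfm (c.aeval_mem hz _)),
      value_mul _ hgm (c.aeval_mem hz B), value_mul _ hfm (c.aeval_mem hz _),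
      value_add _ (c.evxy_mem hz A') (mul_mem (c.evxy_mem hz _) hydm),
      value_mul _ (c.evxy_mem hz _) hydm, c.value_evxy hz, c.value_evxy hz, hydval,
      c.value_aeval hz, c.value_aeval hz] at h
    exact h
  have hbr : (fun u => c.fn f u * B.eval u) =ᶠ[𝓝 z] branch c.h A := by
    filter_upwards [Metric.isOpen_ball.mem_nhds hz, c.eventually_mem hz hfm] with u hu hum
    rw [fn, ← c.value_aeval hu, ← value_mul _ hum (c.aeval_mem hu B), e, c.value_evxy hu]
  have hfd : HasDerivAt (c.fn f) (deriv (c.fn f) z) z :=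
    (c.analyticAt_fn_of_mem hz hfm).differentiableAt.hasDerivAt
  have h1 := ((hfd.mul (B.hasDerivAt z)).congr_of_eventuallyEq hbr.symm).unique (hA2 _ _ _ hh)
  have h2 : deriv (c.fn f) z = c.fn g z := by
    refine mul_right_cancel₀ hB ?_
    simp only [fn] at h1 ⊢
    linear_combination h1 - hval
  rwa [h2] at hfd

/-- `d/dz` is differentiation with respect to `c.x`. -/
theorem hasDerivAt_fn {f g : F}
    (hD : KaehlerDifferential.D ℂ F f = g • KaehlerDifferential.D ℂ F c.x)
    {z : ℂ} (hz : z ∈ Metric.ball (0 : ℂ) c.r) (hf : f ∈ (c.pt z).toValuationSubring) :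
    HasDerivAt (c.fn f) (c.fn g z) z := by
  obtain ⟨A, B, hB, e⟩ := c.gen f
  have hfan := c.analyticAt_fn_of_mem hz hf
  have hgan := c.analyticAt_fn_of_mem hz (c.coeff_mem hD hz hf)
  have h : ∀ᶠ u in 𝓝[≠] z, deriv (c.fn f) u = c.fn g u := by
    filter_upwards [eventually_eval_ne hB z, nhdsWithin_le_nhds (Metric.isOpen_ball.mem_nhds hz)]
      with u hu huz
    exact (c.hasDerivAt_fn_of_eval_ne hD e huz hu).deriv
  have h1 : Tendsto (deriv (c.fn f)) (𝓝[≠] z) (𝓝 (deriv (c.fn f) z)) :=
    hfan.deriv.continuousAt.tendsto.mono_left nhdsWithin_le_nhds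
  have h2 : Tendsto (deriv (c.fn f)) (𝓝[≠] z) (𝓝 (c.fn g z)) :=
    (hgan.continuousAt.tendsto.mono_left nhdsWithin_le_nhds).congr' (h.mono fun u hu => hu.symm)
  rw [← tendsto_nhds_unique h1 h2]
  exact hfan.differentiableAt.hasDerivAt

/-- The coefficient of a holomorphic differential is holomorphic in the chart. -/
theorem analyticOnNhd_coeff {ω : KaehlerDifferential ℂ F} {q : F}
    (hq : ω = q • KaehlerDifferential.D ℂ F c.x)
    (hω : ω = 0 ∨ ∀ w : Place ℂ F, 0 ≤ w.ordDifferential ω) :
    AnalyticOnNhd ℂ (c.fn q) (Metric.ball 0 c.r) := by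
  intro z hz
  refine c.analyticAt_fn hz ?_
  rw [← c.ord_coeff_eq hz q, ← hq]
  rcases hω with h | h
  · rw [h, FF.ordDifferential_zero']
  · exact h _

theorem coeff_regular {ω : KaehlerDifferential ℂ F} {q : F}
    (hq : ω = q • KaehlerDifferential.D ℂ F c.x)
    (hω : ω = 0 ∨ ∀ w : Place ℂ F, 0 ≤ w.ordDifferential ω) {z : ℂ}
    (hz : z ∈ Metric.ball (0 : ℂ) c.r) : 0 ≤ (c.pt z).ord q := by
  rw [← c.ord_coeff_eq hz q, ← hq]
  rcases hω with h | h
  · rw [h, FF.ordDifferential_zero']
  · exact h _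

end BranchChart

end FLTAgent.Pic0Tors
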