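import Mathlib
import Fermat.Agent.FF.Differentials
import Fermat.Agent.Pic0Tors.Value

/-!
# The residue theorem for a pencil

`sum_value_eq_zero`: if `ω = q du` is holomorphic and the fibre of `u` over `s` is simple, the
values of `q` on the fibre sum to zero. Idea: the trace of `q` to `K(u)` is regular everywhere and
vanishes at infinity (`trace_coeff_eq_zero`), and its value is the sum over the fibre
(`value_trace_of_injOn`).
-/

set_option autoImplicit false
set_option linter.unusedSectionVars false
set_option linter.style.haveILetI false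

noncomputable section

open AlgebraicCurve Polynomial WithZero
open scoped IntermediateField

namespace FLTAgent.Pic0Tors

variable {K F : Type*} [Field K] [Field F] [Algebra K F] [IsAlgClosed K] [CharZero K] [FF.IsFF K F]

/-- The value at a place, as a ring homomorphism. -/
def valueHom (w : Place K F) : w.toValuationSubring →+* K where
  toFun f := value w (f : F)
  map_one' := value_one w
  map_zero' := value_zero w
  map_add' f g := value_add w f.2 g.2
  map_mul' f g := value_mul w f.2 g.2

theorem valueHom_apply (w : Place K F) (f : w.toValuationSubring) :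
    valueHom w f = value w (f : F) := rfl

section Fibre

variable {L : IntermediateField K F} [FiniteDimensional L F] [Algebra.IsSeparable L F]
  {v : Place K L} {w : Place K F}

theorem value_restrict (hw : w.restrict L = v) {a : L} {c : K}
    (hc : a = algebraMap K L c ∨ 0 < v.ord (a - algebraMap K L c)) :
    value w (a : F) = c := by
  rcases hc with rfl | h
  · exact value_algebraMap w c
  refine value_eq ?_
  have hne : a - algebraMap K L c ≠ 0 := fun h0 => by simp [h0] at h
  have e : ((a : F) - algebraMap K F c) = algebraMap L F (a - algebraMap K L c) := by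
    rw [map_sub, ← IsScalarTower.algebraMap_apply]; rfl
  have hneF : algebraMap L F (a - algebraMap K L c) ≠ 0 :=
    (_root_.map_ne_zero (algebraMap L F)).mpr hne
  have h1 := w.ord_restrict (F := L) (a - algebraMap K L c)
  rw [hw] at h1
  have h2 : 0 < (w.ramificationIndex L : ℤ) := by exact_mod_cast w.ramificationIndex_pos (F := L)
  rw [e, FF.val_eq_exp w hneF, ← exp_zero, exp_lt_exp, h1]
  nlinarith

/-- The trace of an element with distinct values on a full fibre has value the sum of values. -/
theorem value_trace_of_injOn (T : Finset (Place K F)) (hT : ∀ w, w ∈ T → w.restrict L = v)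
    (hv : FF.ConstResidue v) (hcard : T.card = Module.finrank L F) {z : F}
    (hz : z ∈ FF.overRing v F) (hinj : Set.InjOn (fun w => value w z) (T : Set (Place K F)))
    {w₀ : Place K F} (hw₀ : w₀ ∈ T) :
    value w₀ ((Algebra.trace L F z : L) : F) = ∑ w ∈ T, value w z := by
  classical
  have hint : IsIntegral v.toValuationSubring z := hz
  set P := minpoly v.toValuationSubring z with hP
  have hmem : ∀ w ∈ T, ∀ a : v.toValuationSubring, algebraMap L F (a : L) ∈ w.toValuationSubring :=
    fun w hw a => by rw [← Place.mem_restrict_iff, hT w hw]; exact a.2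
  let φ : ∀ w ∈ T, v.toValuationSubring →+* K := fun w hw =>
    (valueHom w).comp (((algebraMap L F).comp v.toValuationSubring.subtype).codRestrict
      w.toValuationSubring.toSubring (hmem w hw))
  have hφ : ∀ w hw a, φ w hw a = value w (((a : L)) : F) := fun w hw a => rfl
  have hindep : ∀ w hw, φ w hw = φ w₀ hw₀ := fun w hw => RingHom.ext fun a => by
    obtain ⟨c, hc⟩ := hv.exists_ord a.2
    rw [hφ w hw, hφ w₀ hw₀, value_restrict (hT w hw) hc, value_restrict (hT w₀ hw₀) hc]
  set Pb := P.map (φ w₀ hw₀) with hPb
  have hroot : ∀ w ∈ T, Pb.IsRoot (value w z) := by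
    intro w hw
    have hzm : z ∈ w.toValuationSubring := FF.mem_place_of_mem_overRing v hz (hT w hw)
    let g : v.toValuationSubring →+* w.toValuationSubring :=
      ((algebraMap L F).comp v.toValuationSubring.subtype).codRestrict
        w.toValuationSubring.toSubring (hmem w hw)
    have h0 : P.eval₂ g (⟨z, hzm⟩ : w.toValuationSubring) = 0 := by
      refine Subtype.val_injective ?_
      have h := hom_eval₂ P g w.toValuationSubring.subtype ⟨z, hzm⟩
      refine h.trans ?_
      exact minpoly.aeval _ z
    have h1 := congrArg (valueHom w) h0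
    rw [hom_eval₂, map_zero, show (valueHom w).comp g = φ w₀ hw₀ from hindep w hw] at h1
    rw [IsRoot, hPb, eval_map]
    exact h1
  have hmonic : P.Monic := minpoly.monic hint
  have hPbm : Pb.Monic := hmonic.map _
  have hL : minpoly L z = P.map (algebraMap v.toValuationSubring L) :=
    minpoly.isIntegrallyClosed_eq_field_fractions' L hint
  have hdegP : P.natDegree = (minpoly L z).natDegree := by
    rw [hL, hmonic.natDegree_map]
  have hsub : T.image (fun w => value w z) ⊆ Pb.roots.toFinset := by
    intro t ht
    obtain ⟨w, hw, rfl⟩ := Finset.mem_image.mp ht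
    rw [Multiset.mem_toFinset, mem_roots hPbm.ne_zero]
    exact hroot w hw
  have hc1 : (T.image (fun w => value w z)).card = T.card := Finset.card_image_of_injOn hinj
  have hc2 : Pb.natDegree = P.natDegree := hmonic.natDegree_map _
  have hle : P.natDegree ≤ T.card := by
    rw [hcard, hdegP]; exact minpoly.natDegree_le z
  have hc3 : (T.image (fun w => value w z)).card ≤ Pb.roots.toFinset.card := Finset.card_le_card hsub
  have hc4 : Pb.roots.toFinset.card ≤ Multiset.card Pb.roots := Multiset.toFinset_card_le _
  have hc5 : Multiset.card Pb.roots ≤ Pb.natDegree := card_roots' Pb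
  have hdeg : (minpoly L z).natDegree = Module.finrank L F := by omega
  have hroots : Pb.roots = (T.image (fun w => value w z)).val := by
    symm
    refine Multiset.eq_of_le_of_card_le ((Multiset.le_iff_subset (Finset.nodup _)).mpr fun t ht => ?_)
      (by rw [← Finset.card_def]; omega)
    exact Multiset.mem_toFinset.mp (hsub ht)
  have hnext : Pb.nextCoeff = -∑ w ∈ T, value w z := by
    rw [(IsAlgClosed.splits Pb).nextCoeff_eq_neg_sum_roots_of_monic hPbm, hroots]
    congr 1
    rw [← Finset.sum_image (f := fun t => t) hinj, Finset.sum_eq_multiset_sum, Multiset.map_id']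
  have hone : Module.finrank L⟮z⟯ F = 1 := by
    have h1 := Module.finrank_mul_finrank L L⟮z⟯ F
    rw [IntermediateField.adjoin.finrank (IsIntegral.of_finite L z), hdeg] at h1
    have : 0 < Module.finrank L F := Module.finrank_pos
    exact Nat.eq_of_mul_eq_mul_left this (h1.trans (mul_one _).symm)
  have htr : Algebra.trace L F z = -((P.nextCoeff : v.toValuationSubring) : L) := by
    rw [trace_eq_finrank_mul_minpoly_nextCoeff, hone, Nat.cast_one, one_mul, hL,
      nextCoeff_map (IsFractionRing.injective v.toValuationSubring L)]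
    rfl
  have hfin : φ w₀ hw₀ (-P.nextCoeff) = ∑ w ∈ T, value w z := by
    have e : φ w₀ hw₀ P.nextCoeff = Pb.nextCoeff := by
      simp only [nextCoeff, hc2]
      split
      · exact map_zero _
      · rw [hPb, coeff_map]
    rw [map_neg, e, hnext, neg_neg]
  rw [htr, ← hfin, hφ w₀ hw₀]
  rfl

end Fibre

/-- The trace of the coefficient of a holomorphic differential along `u` vanishes. -/
theorem trace_coeff_eq_zero {u : F} (hu : FF.IsSep K u) {ω : KaehlerDifferential K F}
    (hω : ω = 0 ∨ ∀ w : Place K F, 0 ≤ w.ordDifferential ω) {q : F}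
    (hq : ω = q • KaehlerDifferential.D K F u) :
    haveI := hu.finite
    ((Algebra.trace K⟮u⟯ F q : K⟮u⟯) : F) = 0 := by
  haveI := hu.finite
  haveI := hu.separable
  set r : F := ((Algebra.trace K⟮u⟯ F q : K⟮u⟯) : F) with hr
  have hD : KaehlerDifferential.D K F u ≠ 0 := FF.D_ne_zero_of_isSep' hu
  have hβ : ∀ w : Place K F, w.adicValuation q ≤
      exp (w.ordDifferential (KaehlerDifferential.D K F u)) := by
    intro w
    rw [FF.val_le_exp_iff]
    rcases eq_or_ne q 0 with h0 | h0
    · exact Or.inl h0
    right
    rcases hω with h | h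
    · exact absurd (h.symm.trans hq) (smul_ne_zero h0 hD).symm
    · have := h w
      rw [hq, FF.ordDifferential_smul' w h0 hD] at this
      omega
  have hbd : ∀ w : Place K F, r = 0 ∨ 0 ≤ w.ord r ∧ (w.ord u < 0 → 0 < w.ord r) := by
    intro w
    obtain ⟨i, hi⟩ := FF.exists_index hu w
    have h := FF.trace_wgt_le hu rfl (i := i) (β := q) (fun w' _ => hβ w') hi
    rcases eq_or_ne r 0 with h0 | h0
    · exact Or.inl h0
    right
    rw [FF.val_eq_exp w h0] at h
    cases i with
    | none =>
      simp only [FF.loc, w.ord_inv] at hi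
      have hu0 : u ≠ 0 := FF.x_ne_zero hu
      simp only [FF.wgt] at h
      rw [FF.val_eq_exp w (pow_ne_zero _ (inv_ne_zero hu0)), exp_le_exp, FF.ord_pow, w.ord_inv] at h
      exact ⟨by omega, fun _ => by omega⟩
    | some a =>
      simp only [FF.wgt, map_one] at h
      rw [← exp_zero, exp_le_exp] at h
      refine ⟨by omega, fun hneg => absurd (FF.ord_x_nonneg_of_some hu hi) (not_le.mpr hneg)⟩
  obtain ⟨w, hw⟩ := FF.exists_pole hu.transcendental
  rcases eq_or_ne r 0 with h0 | h0
  · exact h0
  exfalso
  obtain ⟨k, hk⟩ := FF.mem_range_of_forall_ord_nonneg (f := r)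
    fun w' => ((hbd w').resolve_left h0).1
  have := ((hbd w).resolve_left h0).2 hw
  rw [← hk, FF.ord_algebraMap] at this
  exact lt_irrefl _ this

/-- **Residue theorem for a pencil.** -/
theorem sum_value_eq_zero (ω : KaehlerDifferential K F)
    (hω : ω = 0 ∨ ∀ w : Place K F, 0 ≤ w.ordDifferential ω)
    (u : F) (hu : Transcendental K u) (q : F) (hq : ω = q • KaehlerDifferential.D K F u) (s : K)
    (T : Finset (Place K F)) (hT : ∀ v, v ∈ T ↔ 0 < v.ord (u - algebraMap K F s))
    (hsimple : ∀ v ∈ T, v.ord (u - algebraMap K F s) = 1) :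
    ∑ v ∈ T, value v q = 0 := by
  classical
  haveI := FF.finiteDimensional_adjoin_of_transcendental (K := K) hu
  haveI := FF.isSeparable_adjoin_of_charZero (K := K) hu
  have hsep : FF.IsSep K u := ⟨hu, inferInstance, inferInstance⟩
  set t := u - algebraMap K F s with ht
  have hsept : FF.IsSep K t := FF.isSep_loc hsep (some s)
  have hadj : K⟮u⟯ = IntermediateField.adjoin K ({t} : Set F) := (FF.adjoin_loc hsep (some s)).symm
  obtain ⟨v₀, t', ht', hv₀, ht1, hiff⟩ := FF.exists_basePlace (K⟮u⟯) hsept hadj
  obtain ⟨y, c, hy⟩ := FF.exists_isAdapted (F := F) hv₀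
  have hTv : ∀ w, w ∈ T → w.restrict K⟮u⟯ = v₀ := fun w hw => (hiff w).mpr ((hT w).mp hw)
  have hcard : T.card = Module.finrank K⟮u⟯ F := by
    haveI := hsept.separable
    have h := FF.degree_zeroDivisor (K := K) hsept.transcendental
    have hd : (FF.zeroDivisor t : Divisor K F) = ∑ w ∈ T, Finsupp.single w 1 := by
      refine Finsupp.ext fun w => ?_
      rw [FF.zeroDivisor_apply, Finsupp.finsetSum_apply]
      by_cases hw : w ∈ T
      · rw [Finset.sum_eq_single w (fun b _ hb => Finsupp.single_eq_of_ne hb.symm)
          (fun h => absurd hw h), Finsupp.single_eq_same, hsimple w hw]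
        rfl
      · rw [Finset.sum_eq_zero fun b hb => Finsupp.single_eq_of_ne (by rintro rfl; exact hw hb)]
        have := fun h' => hw ((hT w).mpr h')
        exact max_eq_left (not_lt.mp this)
    rw [hd, map_sum, Finset.sum_congr rfl fun w _ => FF.degree_single_one w] at h
    rw [hadj]
    simpa using h
  have hyT : ∀ w ∈ T, value w y = c w := fun w hw => value_eq (by
    have h1 := hy.ord_eq_one w (hTv w hw)
    rw [FF.val_eq_exp w (fun h0 => by simp [h0] at h1), h1, ← exp_zero, exp_lt_exp]
    norm_num)
  have hymem : y ∈ FF.overRing v₀ F := hy.mem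
  have hqmem : q ∈ FF.overRing v₀ F := by
    rw [FF.mem_overRing_iff]
    intro w hw
    rw [FF.mem_iff]
    rcases eq_or_ne q 0 with h0 | h0
    · exact Or.inl h0
    right
    have hwT := (hT w).mpr ((hiff w).mp hw)
    have hDt : KaehlerDifferential.D K F u = KaehlerDifferential.D K F t := by
      rw [ht, map_sub, Derivation.map_algebraMap, sub_zero]
    have he := FF.ordDifferential_smul_D_uniformizer w (hsimple w hwT) q
    rw [← hDt, ← hq] at he
    rcases hω with h | h
    · rw [h, FF.ordDifferential_zero'] at he; omega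
    · rw [← he]; exact h w
  have hpos : 0 < T.card := hcard ▸ Module.finrank_pos
  obtain ⟨w₀, hw₀⟩ := Finset.card_pos.mp hpos
  have hinjc : Set.InjOn (fun w => c w) (T : Set (Place K F)) := fun w hw w' hw' h =>
    hy.inj w w' (hTv w hw) (hTv w' hw') h
  obtain ⟨μ, hμ⟩ : ∃ μ : K, μ ∉ (T ×ˢ T).image
      (fun p => (value p.2 q - value p.1 q) / (c p.1 - c p.2)) := Infinite.exists_notMem_finset _
  set z := q + algebraMap K F μ * y with hz
  have hμmem : algebraMap K F μ ∈ FF.overRing v₀ F := by
    rw [FF.mem_overRing_iff]
    exact fun w _ => w.algebraMap_mem' μ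
  have hzmem : z ∈ FF.overRing v₀ F := add_mem hqmem (mul_mem hμmem hymem)
  have hzval : ∀ w ∈ T, value w z = value w q + μ * c w := fun w hw => by
    have hm := fun f (hf : f ∈ FF.overRing v₀ F) => FF.mem_place_of_mem_overRing v₀ hf (hTv w hw)
    rw [hz, value_add w (hm q hqmem) (mul_mem (w.algebraMap_mem' μ) (hm y hymem)),
      value_mul w (w.algebraMap_mem' μ) (hm y hymem), value_algebraMap, hyT w hw]
  have hinjz : Set.InjOn (fun w => value w z) (T : Set (Place K F)) := by
    intro w hw w' hw' h
    simp only [hzval w hw, hzval w' hw'] at h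
    by_contra hne
    have hcc : c w - c w' ≠ 0 := sub_ne_zero.mpr fun h' => hne (hinjc hw hw' h')
    refine hμ (Finset.mem_image.mpr ⟨(w, w'), Finset.mem_product.mpr ⟨hw, hw'⟩, ?_⟩)
    rw [div_eq_iff hcc]
    linear_combination -h
  have hinjy : Set.InjOn (fun w => value w y) (T : Set (Place K F)) := fun w hw w' hw' h => by
    simp only [hyT w hw, hyT w' hw'] at h
    exact hinjc hw hw' h
  have h1 := value_trace_of_injOn T hTv hv₀ hcard hzmem hinjz hw₀
  have h2 := value_trace_of_injOn T hTv hv₀ hcard hymem hinjy hw₀
  have hty : ((Algebra.trace K⟮u⟯ F y : K⟮u⟯) : F) ∈ w₀.toValuationSubring := by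
    have hint : IsIntegral v₀.toValuationSubring y := hy.mem
    obtain ⟨a, ha⟩ := IsIntegrallyClosed.isIntegral_iff.mp
      (Algebra.isIntegral_trace (L := K⟮u⟯) hint)
    rw [← ha, show ((algebraMap v₀.toValuationSubring K⟮u⟯ a : K⟮u⟯) : F) =
      algebraMap K⟮u⟯ F (a : K⟮u⟯) from rfl, ← Place.mem_restrict_iff, hTv w₀ hw₀]
    exact a.2
  have htr0 := trace_coeff_eq_zero hsep hω hq
  have e : z = q + μ • y := by rw [hz, Algebra.smul_def]
  rw [e, map_add, LinearMap.map_smul_of_tower, IntermediateField.coe_add, htr0, zero_add,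
    IntermediateField.coe_smul, Algebra.smul_def, value_mul w₀ (w₀.algebraMap_mem' μ) hty,
    value_algebraMap, h2, ← e, Finset.sum_congr rfl hzval, Finset.sum_congr rfl hyT,
    Finset.sum_add_distrib, ← Finset.mul_sum] at h1
  linear_combination -h1

end FLTAgent.Pic0Tors
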