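import Mathlib
import Fermat.Agent.FF.RiemannRoch
import Fermat.Agent.Pic0Tors.Chart
import Fermat.Agent.Pic0Tors.Curve.Deriv

/-!
# Compactness and connectedness of the places

Stated without a topology, with charts: finitely many discs cover all places
(`exists_finite_cover`, by ultrafilters: the finite limits along an ultrafilter form a valuation
ring), and a set which is locally constant in the charts is empty or everything
(`eq_empty_or_univ`, by the maximum modulus principle for a function with a single pole).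
-/

set_option autoImplicit false
set_option linter.unusedSectionVars false
set_option linter.style.haveILetI false

noncomputable section

open AlgebraicCurve Polynomial WithZero Filter
open scoped Topology

namespace FLTAgent.Pic0Tors

variable {F : Type*} [Field F] [Algebra ℂ F] [FF.IsFF ℂ F]

theorem value_mul_inv (w : Place ℂ F) {f : F} (hf0 : f ≠ 0) (hf : f ∈ w.toValuationSubring)
    (hv : value w f ≠ 0) :
    f⁻¹ ∈ w.toValuationSubring ∧ value w f⁻¹ = (value w f)⁻¹ := by
  have hle := (FF.mem_iff_val_le_one w f).mp hf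
  have h1 : w.adicValuation f = 1 :=
    le_antisymm hle (not_lt.mp fun h => hv ((value_eq_zero_iff w hf).mpr h))
  have hinv : f⁻¹ ∈ w.toValuationSubring := by
    rw [FF.mem_iff_val_le_one, map_inv₀, h1, inv_one]
  refine ⟨hinv, eq_inv_of_mul_eq_one_left ?_⟩
  rw [← value_mul w hinv hf, inv_mul_cancel₀ hf0, value_one]

theorem inv_small_of_large (w : Place ℂ F) (f : F) {R : ℝ} (hR : 0 < R)
    (h : ¬ (f ∈ w.toValuationSubring ∧ ‖value w f‖ ≤ R)) :
    f⁻¹ ∈ w.toValuationSubring ∧ ‖value w f⁻¹‖ ≤ R⁻¹ := by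
  by_cases hf : f ∈ w.toValuationSubring
  · have hlt : R < ‖value w f‖ := lt_of_not_ge fun h' => h ⟨hf, h'⟩
    have hf0 : f ≠ 0 := fun h0 => by
      rw [h0, value_zero, norm_zero] at hlt; linarith
    obtain ⟨h1, h2⟩ := value_mul_inv w hf0 hf (fun h0 => by rw [h0, norm_zero] at hlt; linarith)
    exact ⟨h1, by rw [h2, norm_inv]; exact inv_anti₀ hR hlt.le⟩
  · have hinv := (w.toValuationSubring.mem_or_inv_mem f).resolve_left hf
    refine ⟨hinv, ?_⟩
    have h0 : value w f⁻¹ = 0 := by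
      by_contra hne
      have hf0 : f⁻¹ ≠ 0 := fun h0 => hne (by rw [h0, value_zero])
      have := (value_mul_inv w hf0 hinv hne).1
      rw [inv_inv] at this
      exact hf this
    rw [h0, norm_zero]
    exact inv_nonneg.mpr hR.le

/-- `f` has a finite limit along `U`. -/
def HasLimit (U : Ultrafilter (Place ℂ F)) (f : F) (a : ℂ) : Prop :=
  (∀ᶠ w in (U : Filter (Place ℂ F)), f ∈ w.toValuationSubring) ∧
    Tendsto (fun w => value w f) (U : Filter (Place ℂ F)) (𝓝 a)

variable {U : Ultrafilter (Place ℂ F)}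

theorem hasLimit_const (c : ℂ) : HasLimit U (algebraMap ℂ F c) c :=
  ⟨Eventually.of_forall fun w => w.algebraMap_mem' c, by
    simp only [value_algebraMap]; exact tendsto_const_nhds⟩

theorem HasLimit.add {f g : F} {a b : ℂ} (hf : HasLimit U f a) (hg : HasLimit U g b) :
    HasLimit U (f + g) (a + b) := by
  refine ⟨(hf.1.and hg.1).mono fun w h => add_mem h.1 h.2, (hf.2.add hg.2).congr' ?_⟩
  filter_upwards [hf.1, hg.1] with w h1 h2
  exact (value_add w h1 h2).symm

theorem HasLimit.mul {f g : F} {a b : ℂ} (hf : HasLimit U f a) (hg : HasLimit U g b) :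
    HasLimit U (f * g) (a * b) := by
  refine ⟨(hf.1.and hg.1).mono fun w h => mul_mem h.1 h.2, (hf.2.mul hg.2).congr' ?_⟩
  filter_upwards [hf.1, hg.1] with w h1 h2
  exact (value_mul w h1 h2).symm

theorem HasLimit.neg {f : F} {a : ℂ} (hf : HasLimit U f a) : HasLimit U (-f) (-a) := by
  have := (hasLimit_const (U := U) (-1)).mul hf
  simpa using this

theorem hasLimit_or_inv (f : F) : (∃ a, HasLimit U f a) ∨ HasLimit U f⁻¹ 0 := by
  by_cases h : ∃ R : ℝ, ∀ᶠ w in (U : Filter (Place ℂ F)),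
      f ∈ w.toValuationSubring ∧ ‖value w f‖ ≤ R
  · obtain ⟨R, hR⟩ := h
    left
    obtain ⟨a, -, ha⟩ := (isCompact_closedBall (0 : ℂ) R).ultrafilter_le_nhds
      (U.map fun w => value w f) (by
        rw [le_principal_iff, Ultrafilter.coe_map, mem_map]
        filter_upwards [hR] with w hw
        simpa using hw.2)
    exact ⟨a, hR.mono fun w hw => hw.1, ha⟩
  · right
    rw [not_exists] at h
    have h' : ∀ R : ℝ, ∀ᶠ w in (U : Filter (Place ℂ F)),
        ¬ (f ∈ w.toValuationSubring ∧ ‖value w f‖ ≤ R) := fun R =>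
      Ultrafilter.eventually_not.mpr (h R)
    refine ⟨(h' 1).mono fun w hw => (inv_small_of_large w f one_pos hw).1, ?_⟩
    rw [Metric.tendsto_nhds]
    intro ε hε
    filter_upwards [h' (2 / ε)] with w hw
    rw [dist_zero_right]
    have := (inv_small_of_large w f (by positivity) hw).2
    rw [inv_div] at this
    linarith

/-- The valuation ring of finite limits along `U`. -/
def limitRing (U : Ultrafilter (Place ℂ F)) : ValuationSubring F where
  carrier := {f | ∃ a, HasLimit U f a}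
  mul_mem' := fun ⟨_, ha⟩ ⟨_, hb⟩ => ⟨_, ha.mul hb⟩
  one_mem' := ⟨1, by simpa using hasLimit_const (U := U) 1⟩
  add_mem' := fun ⟨_, ha⟩ ⟨_, hb⟩ => ⟨_, ha.add hb⟩
  zero_mem' := ⟨0, by simpa using hasLimit_const (U := U) 0⟩
  neg_mem' := fun ⟨_, ha⟩ => ⟨_, ha.neg⟩
  mem_or_inv_mem' f := (hasLimit_or_inv f).imp id fun h => ⟨0, h⟩

theorem exists_limit_place (U : Ultrafilter (Place ℂ F)) :
    ∃ v : Place ℂ F, ∀ f ∈ v.toValuationSubring, HasLimit U f (value v f) := by
  have hne : limitRing U ≠ ⊤ := by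
    intro htop
    obtain ⟨x, hx, -⟩ := FF.IsFF.exists_sep (K := ℂ) (F := F)
    have hall : ∀ f : F, ∃ a, HasLimit U f a := fun f => by
      have : f ∈ limitRing U := htop ▸ ValuationSubring.mem_top f
      exact this
    obtain ⟨a, ha⟩ := hall x
    obtain ⟨b, hb⟩ := hall (x - algebraMap ℂ F a)⁻¹
    have h1 := ((ha.add (hasLimit_const (-a))).mul hb).2
    have hne0 : x - algebraMap ℂ F a ≠ 0 := fun h0 =>
      hx ((sub_eq_zero.mp h0) ▸ isAlgebraic_algebraMap a)
    rw [map_neg, ← sub_eq_add_neg, mul_inv_cancel₀ hne0] at h1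
    simp only [value_one, add_neg_cancel, zero_mul] at h1
    exact one_ne_zero (tendsto_nhds_unique tendsto_const_nhds h1)
  obtain ⟨v, hv⟩ := FF.exists_place_eq (K := ℂ) (limitRing U)
    (fun c => ⟨c, hasLimit_const c⟩) hne
  refine ⟨v, fun f hf => ?_⟩
  obtain ⟨a, ha⟩ : f ∈ limitRing U := hv ▸ hf
  suffices h : value v f = a by rwa [h]
  refine value_eq ?_
  have h0 : HasLimit U (f - algebraMap ℂ F a) 0 := by
    simpa [sub_eq_add_neg] using ha.add (hasLimit_const (-a))
  set g := f - algebraMap ℂ F a with hg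
  have hgm : g ∈ v.toValuationSubring := sub_mem hf (v.algebraMap_mem' a)
  refine lt_of_le_of_ne ((FF.mem_iff_val_le_one v g).mp hgm) fun h1 => ?_
  have hg0 : g ≠ 0 := fun hz => by simp [hz] at h1
  have hinv : g⁻¹ ∈ limitRing U := by
    rw [← hv, FF.mem_iff_val_le_one, map_inv₀, h1, inv_one]
  obtain ⟨b, hb⟩ := hinv
  have h2 := (h0.mul hb).2
  rw [mul_inv_cancel₀ hg0, zero_mul] at h2
  simp only [value_one] at h2
  exact one_ne_zero (tendsto_nhds_unique tendsto_const_nhds h2)

theorem eventually_mem_image (c : ∀ v : Place ℂ F, BranchChart v)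
    (U : Ultrafilter (Place ℂ F)) :
    ∃ v : Place ℂ F, ∀ ρ : ℝ, 0 < ρ → ρ ≤ (c v).r →
      (c v).pt '' Metric.ball 0 ρ ∈ (U : Filter (Place ℂ F)) := by
  obtain ⟨v, hv⟩ := exists_limit_place U
  refine ⟨v, fun ρ hρ hρr => ?_⟩
  set cv := c v
  have hxm : cv.x ∈ v.toValuationSubring := by
    have := add_mem ((FF.mem_iff_val_le_one v _).mpr cv.centred.fst.le) (v.algebraMap_mem' 0)
    simpa using this
  have hym : cv.y ∈ v.toValuationSubring := by
    have := add_mem ((FF.mem_iff_val_le_one v _).mpr cv.centred.snd.le) (v.algebraMap_mem' (cv.h 0))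
    simpa using this
  obtain ⟨hx1, hx2⟩ := hv cv.x hxm
  obtain ⟨hy1, hy2⟩ := hv cv.y hym
  rw [value_eq cv.centred.fst] at hx2
  rw [value_eq cv.centred.snd] at hy2
  filter_upwards [hx1, hy1, hx2 (Metric.ball_mem_nhds 0 hρ),
    hy2 (Metric.ball_mem_nhds (cv.h 0) cv.ε_pos)] with w h1 h2 h3 h4
  have hzr : value w cv.x ∈ Metric.ball (0 : ℂ) cv.r := Metric.ball_subset_ball hρr h3
  have hc : Centred w cv.x cv.y (value w cv.x) (value w cv.y) :=
    ⟨val_sub_value_lt w h1, val_sub_value_lt w h2⟩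
  have hb := cv.uniq _ hzr _ h4 (evalEval_eq_zero_of_evxy hc cv.root)
  simp only at hb
  rw [hb] at hc
  exact ⟨_, h3, (cv.centred_unique hzr hc (cv.centred_pt hzr)).symm⟩

/-- Compactness: finitely many discs cover all places. -/
theorem exists_finite_cover (c : ∀ v : Place ℂ F, BranchChart v) (ρ : Place ℂ F → ℝ)
    (hρ : ∀ v, 0 < ρ v) (hle : ∀ v, ρ v ≤ (c v).r) :
    ∃ T : Finset (Place ℂ F), ∀ w, ∃ v ∈ T, ∃ z ∈ Metric.ball (0 : ℂ) (ρ v), (c v).pt z = w := by
  by_contra h
  push Not at h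
  set I : Place ℂ F → Set (Place ℂ F) := fun v => ((c v).pt '' Metric.ball 0 (ρ v))ᶜ with hI
  have hne : (Filter.generate (Set.range I)).NeBot := by
    classical
    rw [Filter.generate_neBot_iff]
    intro t ht hfin
    choose g hg using fun A : t => ht A.2
    haveI := hfin.fintype
    obtain ⟨w, hw⟩ := h (Finset.univ.image g)
    refine ⟨w, fun A hA => ?_⟩
    have hA' := hg ⟨A, hA⟩
    rw [show A = I (g ⟨A, hA⟩) from hA'.symm]
    rintro ⟨z, hz, e⟩
    exact hw (g ⟨A, hA⟩) (Finset.mem_image.mpr ⟨⟨A, hA⟩, Finset.mem_univ _, rfl⟩) z hz e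
  obtain ⟨v, hv⟩ := eventually_mem_image c (Ultrafilter.of (Filter.generate (Set.range I)))
  have h1 := hv (ρ v) (hρ v) (hle v)
  have h2 : I v ∈ (Ultrafilter.of (Filter.generate (Set.range I)) : Filter (Place ℂ F)) :=
    Ultrafilter.of_le _ (Filter.GenerateSets.basic ⟨v, rfl⟩)
  have h3 := Filter.inter_mem h1 h2
  rw [show (c v).pt '' Metric.ball 0 (ρ v) ∩ I v = ∅ from Set.inter_compl_self _] at h3
  exact (Ultrafilter.of (Filter.generate (Set.range I))).empty_notMem h3

/-- The places form a connected space. -/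
theorem eq_empty_or_univ (c : ∀ v : Place ℂ F, BranchChart v) (S : Set (Place ℂ F))
    (h : ∀ v, ∃ d > 0, ∀ z ∈ Metric.ball (0 : ℂ) d, ((c v).pt z ∈ S ↔ v ∈ S)) :
    S = ∅ ∨ S = Set.univ := by
  classical
  by_contra hS
  rw [not_or] at hS
  obtain ⟨w₁, hw₁⟩ := Set.nonempty_iff_ne_empty.mpr hS.1
  obtain ⟨O, hO⟩ := (Set.ne_univ_iff_exists_notMem S).mp hS.2
  obtain ⟨f, hfreg, hfne⟩ : ∃ f : F, (∀ w : Place ℂ F, w ≠ O → f ∈ w.toValuationSubring) ∧
      ∀ a : ℂ, f - algebraMap ℂ F a ≠ 0 := by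
    set m : ℤ := 2 * (genusFF ℂ F : ℤ) + 1
    have hdeg : Divisor.degree (Finsupp.single O m : Divisor ℂ F) = m := by
      rw [Divisor.degree_single, FF.deg_eq_one, Nat.cast_one, mul_one]
    have hell := FF.ell_eq_of_large (D := (Finsupp.single O m : Divisor ℂ F)) (by rw [hdeg]; omega)
    rw [hdeg] at hell
    have hnot : ¬ riemannRochSpace (Finsupp.single O m : Divisor ℂ F) ≤ ℂ ∙ (1 : F) := by
      intro hle
      have := Submodule.finrank_mono hle
      rw [finrank_span_singleton one_ne_zero] at this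
      change FF.ell _ ≤ 1 at this
      omega
    obtain ⟨f, hf, hf1⟩ := SetLike.not_le_iff_exists.mp hnot
    refine ⟨f, fun w hw => ?_, fun a ha => hf1 ?_⟩
    · rw [FF.mem_iff]
      rcases eq_or_ne f 0 with h0 | h0
      · exact Or.inl h0
      · right
        have := FF.ord_of_mem_riemannRochSpace hf h0 w
        rw [Finsupp.single_eq_of_ne hw] at this
        simpa using this
    · rw [sub_eq_zero.mp ha, Submodule.mem_span_singleton]
      exact ⟨a, by rw [Algebra.smul_def, mul_one]⟩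
  choose d hd hdS using h
  set ρ : Place ℂ F → ℝ := fun v => min (d v) (c v).r / 2 with hρ
  have hρ0 : ∀ v, 0 < ρ v := fun v => half_pos (lt_min (hd v) (c v).r_pos)
  have hρd : ∀ v, ρ v < d v := fun v =>
    (half_lt_self (lt_min (hd v) (c v).r_pos)).trans_le (min_le_left _ _)
  have hρr : ∀ v, ρ v < (c v).r := fun v =>
    (half_lt_self (lt_min (hd v) (c v).r_pos)).trans_le (min_le_right _ _)
  obtain ⟨T, hT⟩ := exists_finite_cover c ρ hρ0 fun v => (hρr v).le
  have hmax : ∀ v ∈ T.filter (· ∈ S), ∃ z ∈ Metric.closedBall (0 : ℂ) (ρ v),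
      ∀ u ∈ Metric.closedBall (0 : ℂ) (ρ v), ‖(c v).fn f u‖ ≤ ‖(c v).fn f z‖ := by
    intro v hv
    rw [Finset.mem_filter] at hv
    have hcont : ContinuousOn (fun u => ‖(c v).fn f u‖) (Metric.closedBall (0 : ℂ) (ρ v)) := by
      refine ContinuousOn.norm fun u hu => ?_
      have hur : u ∈ Metric.ball (0 : ℂ) (c v).r :=
        Metric.closedBall_subset_ball (hρr v) hu
      have huS : (c v).pt u ∈ S :=
        (hdS v u (Metric.closedBall_subset_ball (hρd v) hu)).mpr hv.2
      exact ((c v).analyticAt_fn_of_mem hur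
        (hfreg _ fun e => hO (e ▸ huS))).continuousAt.continuousWithinAt
    exact (isCompact_closedBall (0 : ℂ) (ρ v)).exists_isMaxOn
      (Metric.nonempty_closedBall.mpr (hρ0 v).le) hcont
  choose! zm hzm hzmax using hmax
  have hcov : ∀ w ∈ S, ∃ v ∈ T.filter (· ∈ S), ‖value w f‖ ≤ ‖(c v).fn f (zm v)‖ := by
    intro w hw
    obtain ⟨v, hvT, z, hz, rfl⟩ := hT w
    have hvS : v ∈ S := (hdS v z (Metric.ball_subset_ball (hρd v).le hz)).mp hw
    have hvF : v ∈ T.filter (· ∈ S) := Finset.mem_filter.mpr ⟨hvT, hvS⟩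
    exact ⟨v, hvF, hzmax v hvF z (Metric.ball_subset_closedBall hz)⟩
  obtain ⟨v₁, hv₁, -⟩ := hcov w₁ hw₁
  obtain ⟨v, hv, hvmax⟩ := (T.filter (· ∈ S)).exists_max_image
    (fun v => ‖(c v).fn f (zm v)‖) ⟨v₁, hv₁⟩
  have hvS : v ∈ S := (Finset.mem_filter.mp hv).2
  set ws := (c v).pt (zm v)
  have hwsS : ws ∈ S := (hdS v _ (Metric.closedBall_subset_ball (hρd v) (hzm v hv))).mpr hvS
  have hmaxS : ∀ w ∈ S, ‖value w f‖ ≤ ‖value ws f‖ := fun w hw => by
    obtain ⟨v', hv', hle⟩ := hcov w hw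
    exact hle.trans (hvmax v' hv')
  -- at a maximum of the modulus the function is constant
  set cs := c ws
  have hws0 : cs.pt 0 = ws := cs.pt_zero
  have hfws : f ∈ ws.toValuationSubring := hfreg _ fun e => hO (e ▸ hwsS)
  have han : AnalyticAt ℂ (cs.fn f) 0 := cs.analyticAt_fn_of_mem cs.zero_mem (by rwa [hws0])
  have hball : ∀ᶠ u in 𝓝 (0 : ℂ), cs.pt u ∈ S :=
    eventually_of_mem (Metric.ball_mem_nhds 0 (hd ws)) fun u hu => (hdS ws u hu).mpr hwsS
  have hloc : IsLocalMax (norm ∘ cs.fn f) (0 : ℂ) := by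
    filter_upwards [hball] with u hu
    simp only [Function.comp_apply, BranchChart.fn, hws0]
    exact hmaxS _ hu
  have hconst := Complex.eventually_eq_of_isLocalMax_norm
    (han.eventually_analyticAt.mono fun u hu => hu.differentiableAt) hloc
  set a := cs.fn f 0
  have hzero : cs.fn (f - algebraMap ℂ F a) =ᶠ[𝓝 (0 : ℂ)] fun _ => 0 := by
    filter_upwards [hconst, cs.eventually_mem cs.zero_mem (hws0.symm ▸ hfws)] with u hu hum
    simp only [BranchChart.fn] at hu ⊢
    rw [value_sub _ hum ((cs.pt u).algebraMap_mem' a), value_algebraMap, hu]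
    exact sub_self _
  have h1 := cs.meromorphicOrderAt_fn (hfne a) cs.zero_mem
  rw [meromorphicOrderAt_congr (hzero.filter_mono nhdsWithin_le_nhds),
    meromorphicOrderAt_eq_top_iff.mpr (Eventually.of_forall fun _ => rfl)] at h1
  exact WithTop.top_ne_coe h1

end FLTAgent.Pic0Tors
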